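import Mathlib
import Fermat.Agent.S14.Reduction.Lift

/-!
# S13, global step (G1): an everywhere unramified character of `G_ℚ` is trivial

* `g1_finrank_eq_one`: a Galois number field all of whose inertia groups are trivial is `ℚ`
  (Minkowski's discriminant bound, through Mathlib's `NumberField.exists_not_isUnramifiedAt_int`).
* `g1_eq_top`: an open normal subgroup of `G_ℚ` containing the inertia subgroup
  `A.inertiaSubgroupIn ℚ` of every valuation subring `A` of `ℚ̄` above a prime is the whole group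
  (inertia lifting from the landed S14 Galois reduction).
* `g1_char_eq_one`, `g1_char_eq_one_of_fixingSubgroup_le`: the same for homomorphisms out of `G_ℚ`.
-/

open NumberField

namespace Fermat.Agent.S13

open scoped Pointwise
open Fermat.Agent.S14.Reduction

set_option linter.style.haveILetI false
set_option linter.unusedSectionVars false
set_option autoImplicit false

section Core

variable {K : Type*} [Field K] [NumberField K] [IsGalois ℚ K]

/-- A Galois number field all of whose inertia groups are trivial is `ℚ`. -/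
theorem g1_finrank_eq_one
    (h : ∀ P : Ideal (𝓞 K), P.IsPrime → P ≠ ⊥ →
      ∀ g : K ≃ₐ[ℚ] K, (∀ x : 𝓞 K, g • x - x ∈ P) → g = 1) :
    Module.finrank ℚ K = 1 := by
  by_contra H
  obtain ⟨P, hPmax, hP⟩ := NumberField.exists_not_isUnramifiedAt_int (K := K) (𝒪 := 𝓞 K) H
  have hPprime : P.IsPrime := hPmax.isPrime
  have hP0 : P ≠ ⊥ := Ideal.IsMaximal.ne_bot_of_isIntegral_int P
  apply hP
  have hp : (P.under ℤ).IsPrime := inferInstance
  have hp0 : P.under ℤ ≠ ⊥ := fun h0 => hP0 (Ideal.eq_bot_of_comap_eq_bot h0)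
  have hpmax : (P.under ℤ).IsMaximal := Ideal.IsPrime.isMaximal hp hp0
  have : Finite (ℤ ⧸ P.under ℤ) := Ideal.finiteQuotientOfFreeOfNeBot _ hp0
  have : Finite (P.under ℤ).ResidueField := inferInstance
  rw [← Ideal.ramificationIdx_eq_one_iff,
    ← Ideal.ramificationIdxIn_eq_ramificationIdx (P.under ℤ) P Gal(K/ℚ),
    ← Ideal.card_inertia_eq_ramificationIdxIn (G := Gal(K/ℚ)) (P.under ℤ) P]
  rw [Subgroup.card_eq_one, eq_bot_iff]
  intro g hg
  rw [AddSubgroup.mem_inertia] at hg
  exact Subgroup.mem_bot.mpr (h P hPprime hP0 g hg)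

end Core

section Global

/-- An open normal subgroup of the absolute Galois group of `ℚ` which contains every inertia group
is everything. -/
theorem g1_eq_top (N : Subgroup (AlgebraicClosure ℚ ≃ₐ[ℚ] AlgebraicClosure ℚ)) [N.Normal]
    (hN : IsOpen (N : Set (AlgebraicClosure ℚ ≃ₐ[ℚ] AlgebraicClosure ℚ)))
    (h : ∀ ℓ : ℕ, ℓ.Prime → ∀ A : ValuationSubring (AlgebraicClosure ℚ), A.LiesOverPrime ℓ →
      A.inertiaSubgroupIn ℚ ≤ N) : N = ⊤ := by
  set K := IntermediateField.fixedField N with hK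
  haveI hfd : FiniteDimensional ℚ K := finiteDimensional_fixedField N hN
  haveI hgal : IsGalois ℚ K := isGalois_fixedField N hN
  haveI : NumberField K := { to_charZero := inferInstance, to_finiteDimensional := hfd }
  have hfix : K.fixingSubgroup = N := fixingSubgroup_fixedField_of_isOpen N hN
  have hker : (AlgEquiv.restrictNormalHom (F := ℚ) (K₁ := AlgebraicClosure ℚ) K).ker = N := by
    rw [ker_restrictNormalHom, hfix]
  have h1 : Module.finrank ℚ K = 1 := by
    apply g1_finrank_eq_one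
    intro P hP hP0 g hg
    obtain ⟨ℓ, hℓ, A, hA, σ, hσ, hres⟩ := inertiaLift K P hP hP0 g
      (fun x => ⟨g • x - x, hg x, rfl⟩)
    have hσN : σ ∈ N := h ℓ hℓ A hA hσ
    rw [← hker, MonoidHom.mem_ker] at hσN
    rw [← hres, hσN]
  have hKbot : K = ⊥ := IntermediateField.finrank_eq_one_iff.mp h1
  rw [← hfix, hKbot]
  exact IntermediateField.fixingSubgroup_bot

/-- A homomorphism out of the absolute Galois group of `ℚ` with open kernel which is trivial on
every inertia group is trivial. -/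
theorem g1_char_eq_one {M : Type*} [Group M]
    (ψ : (AlgebraicClosure ℚ ≃ₐ[ℚ] AlgebraicClosure ℚ) →* M)
    (hopen : IsOpen (ψ.ker : Set (AlgebraicClosure ℚ ≃ₐ[ℚ] AlgebraicClosure ℚ)))
    (h : ∀ ℓ : ℕ, ℓ.Prime → ∀ A : ValuationSubring (AlgebraicClosure ℚ), A.LiesOverPrime ℓ →
      ∀ σ ∈ A.inertiaSubgroupIn ℚ, ψ σ = 1)
    (σ : AlgebraicClosure ℚ ≃ₐ[ℚ] AlgebraicClosure ℚ) : ψ σ = 1 := by
  have htop : ψ.ker = ⊤ := g1_eq_top ψ.ker hopen
    (fun ℓ hℓ A hA τ hτ => MonoidHom.mem_ker.mpr (h ℓ hℓ A hA τ hτ))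
  have : σ ∈ ψ.ker := by rw [htop]; exact Subgroup.mem_top σ
  exact MonoidHom.mem_ker.mp this

/-- Variant of `g1_char_eq_one`: instead of an open kernel, the homomorphism is assumed to be
trivial on the absolute Galois group of a finite extension `E` of `ℚ`. -/
theorem g1_char_eq_one_of_fixingSubgroup_le {M : Type*} [Group M]
    (ψ : (AlgebraicClosure ℚ ≃ₐ[ℚ] AlgebraicClosure ℚ) →* M)
    (E : IntermediateField ℚ (AlgebraicClosure ℚ)) [FiniteDimensional ℚ E]
    (hE : E.fixingSubgroup ≤ ψ.ker)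
    (h : ∀ ℓ : ℕ, ℓ.Prime → ∀ A : ValuationSubring (AlgebraicClosure ℚ), A.LiesOverPrime ℓ →
      ∀ σ ∈ A.inertiaSubgroupIn ℚ, ψ σ = 1)
    (σ : AlgebraicClosure ℚ ≃ₐ[ℚ] AlgebraicClosure ℚ) : ψ σ = 1 :=
  g1_char_eq_one ψ (Subgroup.isOpen_mono hE (IntermediateField.fixingSubgroup_isOpen E)) h σ

end Global

end Fermat.Agent.S13
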