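import Mathlib
import Fermat.Agent.S13.Global.Unramified

/-!
# S13, global step (G1), second part: one valuation subring per prime suffices

* `g1_mem_range_of_fixed`, `g1_isOpen_of_finset`, `g1_exists_liesOver`: small facts on `G_ℚ`.
* `g1_idealOf A`: the prime of the ring of all algebraic integers cut out by a valuation subring
  `A` of `ℚ̄`; `g1_eq_valSubring`: `A` is the localisation at that prime.
* `g1_exists_lift`: inertia lifting into the valuation subring attached to a GIVEN prime (variant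
  of the landed `Fermat.Agent.S14.Reduction.exists_lift_of_mem_inertia`).
* `g1_eq_top'`: an open normal subgroup of `G_ℚ` containing, for every prime `ℓ`, the inertia
  subgroup of ONE valuation subring above `ℓ`, is the whole group.
-/

open NumberField

namespace Fermat.Agent.S13

open scoped Pointwise
open Fermat.Agent.S14.Reduction Fermat.Agent.S54

set_option linter.style.haveILetI false
set_option linter.unusedSectionVars false
set_option autoImplicit false

attribute [local instance] Fermat.Agent.S54.galAction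

/-- Instance-path repair: the default `Algebra ℚ (AlgebraicClosure ℚ)` is the division-ring one. -/
local instance g1_qbarIsAlgebraic : Algebra.IsAlgebraic ℚ (AlgebraicClosure ℚ) :=
  AlgebraicClosure.isAlgebraic ℚ

local instance g1_qbarIsAlgClosure : IsAlgClosure ℚ (AlgebraicClosure ℚ) :=
  ⟨inferInstance, inferInstance⟩

section Small

/-- An element of `ℚ̄` fixed by the whole Galois group is rational. -/
theorem g1_mem_range_of_fixed (x : AlgebraicClosure ℚ)
    (h : ∀ σ : AlgebraicClosure ℚ ≃ₐ[ℚ] AlgebraicClosure ℚ, σ x = x) :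
    x ∈ (algebraMap ℚ (AlgebraicClosure ℚ)).range := by
  have h1 : x ∈ IntermediateField.fixedField
      (⊤ : Subgroup (AlgebraicClosure ℚ ≃ₐ[ℚ] AlgebraicClosure ℚ)) := by
    rw [IntermediateField.mem_fixedField_iff]
    intro σ _
    exact h σ
  have h2 : IntermediateField.fixedField
      (⊤ : Subgroup (AlgebraicClosure ℚ ≃ₐ[ℚ] AlgebraicClosure ℚ)) = ⊥ := by
    rw [← IntermediateField.fixingSubgroup_bot]
    exact InfiniteGalois.fixedField_fixingSubgroup ⊥
  rw [h2, IntermediateField.mem_bot] at h1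
  obtain ⟨r, hr⟩ := h1
  exact ⟨r, hr⟩

/-- A subgroup of `G_ℚ` containing the pointwise stabiliser of a finite set is open. -/
theorem g1_isOpen_of_finset (s : Finset (AlgebraicClosure ℚ))
    (H : Subgroup (AlgebraicClosure ℚ ≃ₐ[ℚ] AlgebraicClosure ℚ))
    (h : ∀ σ : AlgebraicClosure ℚ ≃ₐ[ℚ] AlgebraicClosure ℚ, (∀ x ∈ s, σ x = x) → σ ∈ H) :
    IsOpen (H : Set (AlgebraicClosure ℚ ≃ₐ[ℚ] AlgebraicClosure ℚ)) := by
  set E := IntermediateField.adjoin ℚ (s : Set (AlgebraicClosure ℚ)) with hE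
  haveI : FiniteDimensional ℚ E :=
    IntermediateField.finiteDimensional_adjoin (fun x _ => (Algebra.IsIntegral.isIntegral x))
  have hle : E.fixingSubgroup ≤ H := by
    intro σ hσ
    apply h σ
    intro x hx
    exact (IntermediateField.mem_fixingSubgroup_iff E σ).mp hσ x
      (IntermediateField.subset_adjoin ℚ _ (Finset.mem_coe.mpr hx))
  exact Subgroup.isOpen_mono hle (IntermediateField.fixingSubgroup_isOpen E)

/-- Above every prime number there is a valuation subring of `ℚ̄`. -/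
theorem g1_exists_liesOver (ℓ : ℕ) (hℓ : ℓ.Prime) :
    ∃ A : ValuationSubring (AlgebraicClosure ℚ), A.LiesOverPrime ℓ := by
  haveI hspanmax : (Ideal.span {(ℓ : ℤ)}).IsMaximal :=
    PrincipalIdealRing.isMaximal_of_irreducible (Nat.prime_iff_prime_int.mp hℓ).irreducible
  obtain ⟨Q, hQmax, hQP⟩ :=
    Ideal.exists_maximal_ideal_liesOver_of_isIntegral (S := intQbar) (Ideal.span {(ℓ : ℤ)})
  haveI := hQmax
  haveI := hQP
  haveI hQprime : Q.IsPrime := hQmax.isPrime
  exact ⟨valSubring hℓ Q, liesOverPrime_valSubring hℓ Q⟩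

end Small

section IdealOf

theorem g1_mem_of_isIntegral {L : Type*} [Field L] (A : ValuationSubring L) {x : L}
    (hx : IsIntegral ℤ x) : x ∈ A := by
  have h1 : IsIntegral A x := hx.tower_top
  obtain ⟨y, hy⟩ := IsIntegrallyClosed.isIntegral_iff.mp h1
  rw [← hy]
  exact y.2

variable (A : ValuationSubring (AlgebraicClosure ℚ))

theorem g1_coe_mem (b : intQbar) : (b : AlgebraicClosure ℚ) ∈ A :=
  g1_mem_of_isIntegral A b.2

theorem g1_valuation_le_one (b : intQbar) : A.valuation (b : AlgebraicClosure ℚ) ≤ 1 :=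
  (A.valuation_le_one_iff _).mpr (g1_coe_mem A b)

/-- The prime of the ring of all algebraic integers cut out by a valuation subring of `ℚ̄`. -/
def g1_idealOf : Ideal intQbar where
  carrier := {b | A.valuation (b : AlgebraicClosure ℚ) < 1}
  add_mem' {a b} ha hb := by
    show A.valuation ((a + b : intQbar) : AlgebraicClosure ℚ) < 1
    push_cast
    exact lt_of_le_of_lt (A.valuation.map_add _ _) (max_lt ha hb)
  zero_mem' := by
    show A.valuation ((0 : intQbar) : AlgebraicClosure ℚ) < 1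
    simp
  smul_mem' c {b} hb := by
    show A.valuation ((c * b : intQbar) : AlgebraicClosure ℚ) < 1
    push_cast
    rw [map_mul]
    exact mul_lt_one_of_nonneg_of_lt_one_right (g1_valuation_le_one A c) zero_le hb

theorem g1_mem_idealOf {b : intQbar} :
    b ∈ g1_idealOf A ↔ A.valuation (b : AlgebraicClosure ℚ) < 1 := Iff.rfl

theorem g1_not_mem_idealOf {b : intQbar} :
    b ∉ g1_idealOf A ↔ A.valuation (b : AlgebraicClosure ℚ) = 1 := by
  rw [g1_mem_idealOf, not_lt]
  exact ⟨fun h => le_antisymm (g1_valuation_le_one A b) h, fun h => h.ge⟩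

instance g1_idealOf_isPrime : (g1_idealOf A).IsPrime := by
  refine ⟨?_, ?_⟩
  · rw [Ideal.ne_top_iff_one, g1_not_mem_idealOf]
    simp
  · intro a b hab
    by_contra hcon
    rw [not_or] at hcon
    rw [g1_not_mem_idealOf, g1_not_mem_idealOf] at hcon
    rw [g1_mem_idealOf] at hab
    push_cast at hab
    rw [map_mul, hcon.1, hcon.2, one_mul] at hab
    exact lt_irrefl _ hab

variable {A} {ℓ : ℕ} (hℓ : ℓ.Prime) (hA : A.LiesOverPrime ℓ)

include hℓ hA in
theorem g1_idealOf_liesOver : (g1_idealOf A).LiesOver (Ideal.span {(ℓ : ℤ)}) := by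
  haveI hspanmax : (Ideal.span {(ℓ : ℤ)}).IsMaximal :=
    PrincipalIdealRing.isMaximal_of_irreducible (Nat.prime_iff_prime_int.mp hℓ).irreducible
  constructor
  refine hspanmax.eq_of_le (Ideal.IsPrime.ne_top (Ideal.IsPrime.under ℤ (g1_idealOf A))) ?_
  rw [Ideal.span_singleton_le_iff_mem, Ideal.under_def, Ideal.mem_comap, g1_mem_idealOf]
  have h1 : A.valuation ((ℓ : ℕ) : AlgebraicClosure ℚ) < 1 := hA
  have h2 : ((algebraMap ℤ intQbar (ℓ : ℤ) : intQbar) : AlgebraicClosure ℚ)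
      = ((ℓ : ℕ) : AlgebraicClosure ℚ) := by
    simp
  rw [h2]
  exact h1

include hℓ hA in
/-- A valuation subring of `ℚ̄` above `ℓ` is the localisation of the ring of algebraic integers at
the prime it cuts out. -/
theorem g1_eq_valSubring :
    haveI := g1_idealOf_liesOver hℓ hA
    A = valSubring hℓ (g1_idealOf A) := by
  haveI := g1_idealOf_liesOver hℓ hA
  have hVA : valSubring hℓ (g1_idealOf A) ≤ A := by
    intro x hx
    obtain ⟨b, s, hs, hbs⟩ := (mem_valSubring_iff hℓ (g1_idealOf A)).mp hx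
    rw [g1_not_mem_idealOf] at hs
    rw [← A.valuation_le_one_iff]
    have h1 : A.valuation x = A.valuation (b : AlgebraicClosure ℚ) := by
      rw [← hbs, map_mul, hs, mul_one]
    rw [h1]
    exact g1_valuation_le_one A b
  refine le_antisymm ?_ hVA
  rw [← ValuationSubring.nonunits_le_nonunits]
  intro x hx
  rw [ValuationSubring.mem_nonunits_iff_or] at hx
  rcases hx with rfl | hx
  · show A.valuation 0 < 1
    simp
  · have hx0 : x ≠ 0 := by
      rintro rfl
      apply hx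
      simp
    have hxV : x ∈ valSubring hℓ (g1_idealOf A) := by
      rcases (valSubring hℓ (g1_idealOf A)).mem_or_inv_mem x with h | h
      · exact h
      · exact absurd h hx
    obtain ⟨b, s, hs, hbs⟩ := (mem_valSubring_iff hℓ (g1_idealOf A)).mp hxV
    have hb : b ∈ g1_idealOf A := by
      by_contra hb
      apply hx
      refine (mem_valSubring_iff hℓ (g1_idealOf A)).mpr ⟨s, b, hb, ?_⟩
      rw [← hbs]
      field_simp
    rw [g1_not_mem_idealOf] at hs
    rw [g1_mem_idealOf] at hb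
    show A.valuation x < 1
    have h1 : A.valuation x = A.valuation (b : AlgebraicClosure ℚ) := by
      rw [← hbs, map_mul, hs, mul_one]
    rw [h1]
    exact hb

end IdealOf

section Lift

variable (K : IntermediateField ℚ (AlgebraicClosure ℚ)) [FiniteDimensional ℚ K] [IsGalois ℚ K]
  [NumberField K]

attribute [local instance] Fermat.Agent.S14.Reduction.algebraIntQbar

/-- Lifting an element of the inertia group of the prime `Q ∩ 𝓞 K` of `K` into the inertia group
of the valuation subring attached to a GIVEN prime `Q` of the ring of all algebraic integers.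
(Variant of `Fermat.Agent.S14.Reduction.exists_lift_of_mem_inertia`, where `Q` is chosen.) -/
theorem g1_exists_lift {ℓ : ℕ} (hℓ : ℓ.Prime) (Q : Ideal intQbar) [hQprime : Q.IsPrime]
    [hQℓ : Q.LiesOver (Ideal.span {(ℓ : ℤ)})]
    (g : K ≃ₐ[ℚ] K) (hg : ∀ x : 𝓞 K, toIntQbar K (g • x) - toIntQbar K x ∈ Q) :
    ∃ σ ∈ (valSubring hℓ Q).inertiaSubgroupIn ℚ, AlgEquiv.restrictNormalHom K σ = g := by
  classical
  -- topology
  letI : TopologicalSpace intQbar := ⊥
  haveI : DiscreteTopology intQbar := ⟨rfl⟩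
  haveI := galAction_continuousSMul
  have hNclosed : IsClosed (K.fixingSubgroup :
      Set (AlgebraicClosure ℚ ≃ₐ[ℚ] AlgebraicClosure ℚ)) :=
    InfiniteGalois.fixingSubgroup_isClosed K
  haveI : CompactSpace K.fixingSubgroup := isCompact_iff_compactSpace.mp hNclosed.isCompact
  -- the prime of `K` below `Q`
  set P : Ideal (𝓞 K) := Q.under (𝓞 K) with hPdef
  haveI hQP : Q.LiesOver P := ⟨rfl⟩
  -- any lift of `g` acts trivially modulo `Q` on the image of `𝓞 K`
  have hkey : ∀ σ : AlgebraicClosure ℚ ≃ₐ[ℚ] AlgebraicClosure ℚ,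
      AlgEquiv.restrictNormalHom K σ = g →
      ∀ x : 𝓞 K, σ • toIntQbar K x - toIntQbar K x ∈ Q := by
    intro σ hσ x
    have h1 : σ • toIntQbar K x = toIntQbar K (g • x) := by
      apply Subtype.ext
      rw [coe_galAction_smul, coe_toIntQbar, coe_toIntQbar, ← hσ,
        ← coe_restrictNormalHom K σ (x : K)]
      rfl
    rw [h1]
    exact hg x
  -- a lift of `g`
  obtain ⟨σ₁, hσ₁⟩ := AlgEquiv.restrictNormalHom_surjective (F := ℚ) (K₁ := K)
    (AlgebraicClosure ℚ) g
  have hunder : (σ₁ • Q).under (𝓞 K) = Q.under (𝓞 K) := by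
    ext x
    rw [Ideal.under_def, Ideal.under_def, Ideal.mem_comap, Ideal.mem_comap,
      algebraMap_intQbar_apply, Ideal.mem_pointwise_smul_iff_inv_smul_mem]
    obtain ⟨x', hx'⟩ := exists_toIntQbar_eq K (b := σ₁⁻¹ • toIntQbar K x) (by
      rw [coe_galAction_smul, coe_toIntQbar, ← coe_restrictNormalHom K σ₁⁻¹ (x : K)]
      exact Subtype.mem _)
    have h1 := hkey σ₁ hσ₁ x'
    rw [hx', smul_inv_smul] at h1
    constructor
    · intro h
      have := Q.add_mem h1 h
      simpa using this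
    · intro h
      have := Q.sub_mem h h1
      simpa using this
  obtain ⟨n₁, hn₁⟩ := Algebra.IsInvariant.exists_smul_of_under_eq_of_profinite (A := 𝓞 K)
    (B := intQbar) (G := K.fixingSubgroup) Q (σ₁ • Q) hunder.symm
  have hresn : ∀ n : K.fixingSubgroup,
      AlgEquiv.restrictNormalHom K (n : AlgebraicClosure ℚ ≃ₐ[ℚ] AlgebraicClosure ℚ) = 1 := by
    intro n
    have : (n : AlgebraicClosure ℚ ≃ₐ[ℚ] AlgebraicClosure ℚ) ∈
        (AlgEquiv.restrictNormalHom (F := ℚ) (K₁ := AlgebraicClosure ℚ) K).ker := by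
      rw [ker_restrictNormalHom]; exact n.2
    exact this
  set σ₂ : AlgebraicClosure ℚ ≃ₐ[ℚ] AlgebraicClosure ℚ :=
    (n₁ : AlgebraicClosure ℚ ≃ₐ[ℚ] AlgebraicClosure ℚ)⁻¹ * σ₁ with hσ₂def
  have hσ₂Q : σ₂ • Q = Q := by
    rw [hσ₂def, mul_smul, hn₁]
    exact inv_smul_smul (n₁ : AlgebraicClosure ℚ ≃ₐ[ℚ] AlgebraicClosure ℚ) Q
  have hσ₂ : AlgEquiv.restrictNormalHom K σ₂ = g := by
    rw [hσ₂def, map_mul, map_inv, hresn, hσ₁, inv_one, one_mul]
  -- the automorphism of the residue field of `Q` induced by `σ₂`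
  let e : intQbar ≃+* intQbar :=
    MulSemiringAction.toRingEquiv (AlgebraicClosure ℚ ≃ₐ[ℚ] AlgebraicClosure ℚ) intQbar σ₂
  have he : ∀ b : intQbar, e b = σ₂ • b := fun _ => rfl
  have hmap : Q = Q.map (e : intQbar →+* intQbar) := by
    have h1 : σ₂ • Q = Q.map (e : intQbar →+* intQbar) := rfl
    rw [← h1, hσ₂Q]
  let φr : (intQbar ⧸ Q) ≃+* (intQbar ⧸ Q) := Ideal.quotientEquiv Q Q e hmap
  have hφr : ∀ b : intQbar, φr (Ideal.Quotient.mk Q b) = Ideal.Quotient.mk Q (σ₂ • b) :=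
    fun b => Ideal.quotientEquiv_mk Q Q e hmap b
  let φ : (intQbar ⧸ Q) ≃ₐ[𝓞 K ⧸ P] (intQbar ⧸ Q) :=
    AlgEquiv.ofRingEquiv (f := φr) (by
      intro x
      obtain ⟨a, rfl⟩ := Ideal.Quotient.mk_surjective x
      rw [Ideal.Quotient.algebraMap_mk_of_liesOver, hφr, Ideal.Quotient.eq,
        algebraMap_intQbar_apply]
      exact hkey σ₂ hσ₂ a)
  obtain ⟨n₂, hn₂⟩ := Ideal.Quotient.stabilizerHom_surjective_of_profinite
    (G := K.fixingSubgroup) P Q φ
  have hn₂b : ∀ b : intQbar,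
      ((n₂ : K.fixingSubgroup) : AlgebraicClosure ℚ ≃ₐ[ℚ] AlgebraicClosure ℚ) • b - σ₂ • b ∈ Q := by
    intro b
    have h1 := DFunLike.congr_fun hn₂ (Ideal.Quotient.mk Q b)
    rw [Ideal.Quotient.stabilizerHom_apply] at h1
    have h2 : φ (Ideal.Quotient.mk Q b) = Ideal.Quotient.mk Q (σ₂ • b) := hφr b
    rw [h2] at h1
    exact Ideal.Quotient.eq.mp h1
  have hn₂Q : ((n₂ : K.fixingSubgroup) : AlgebraicClosure ℚ ≃ₐ[ℚ] AlgebraicClosure ℚ) • Q = Q :=
    n₂.2
  set σ : AlgebraicClosure ℚ ≃ₐ[ℚ] AlgebraicClosure ℚ :=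
    ((n₂ : K.fixingSubgroup) : AlgebraicClosure ℚ ≃ₐ[ℚ] AlgebraicClosure ℚ)⁻¹ * σ₂ with hσdef
  have hσQ : σ • Q = Q := by
    rw [hσdef, mul_smul, hσ₂Q, inv_smul_eq_iff, hn₂Q]
  have hσtriv : ∀ b : intQbar, σ • b - b ∈ Q := by
    intro b
    have h1 : -(((n₂ : K.fixingSubgroup) : AlgebraicClosure ℚ ≃ₐ[ℚ] AlgebraicClosure ℚ) • b -
        σ₂ • b) ∈ Q := Q.neg_mem (hn₂b b)
    have h2 := Ideal.smul_mem_pointwise_smul
      (((n₂ : K.fixingSubgroup) : AlgebraicClosure ℚ ≃ₐ[ℚ] AlgebraicClosure ℚ)⁻¹) _ Q h1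
    have h3 : ((n₂ : K.fixingSubgroup) : AlgebraicClosure ℚ ≃ₐ[ℚ] AlgebraicClosure ℚ)⁻¹ • Q = Q := by
      rw [inv_smul_eq_iff, hn₂Q]
    rw [h3, smul_neg, smul_sub, inv_smul_smul, neg_sub, ← mul_smul] at h2
    exact h2
  refine ⟨σ, mem_inertiaSubgroupIn_valSubring hℓ Q hσQ hσtriv, ?_⟩
  rw [hσdef, map_mul, map_inv, hresn, hσ₂, inv_one, one_mul]

end Lift

section One

/-- A prime of a Galois number field with trivial inertia group is unramified over `ℤ`. -/
theorem g1_isUnramifiedAt {K : Type*} [Field K] [NumberField K] [IsGalois ℚ K]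
    (P : Ideal (𝓞 K)) [hPprime : P.IsPrime] (hP0 : P ≠ ⊥)
    (h : ∀ g : K ≃ₐ[ℚ] K, (∀ x : 𝓞 K, g • x - x ∈ P) → g = 1) :
    Algebra.IsUnramifiedAt ℤ P := by
  have hp : (P.under ℤ).IsPrime := inferInstance
  have hp0 : P.under ℤ ≠ ⊥ := fun h0 => hP0 (Ideal.eq_bot_of_comap_eq_bot h0)
  have hpmax : (P.under ℤ).IsMaximal := Ideal.IsPrime.isMaximal hp hp0
  have : Finite (ℤ ⧸ P.under ℤ) := Ideal.finiteQuotientOfFreeOfNeBot _ hp0
  have : Finite (P.under ℤ).ResidueField := inferInstance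
  rw [← Ideal.ramificationIdx_eq_one_iff,
    ← Ideal.ramificationIdxIn_eq_ramificationIdx (P.under ℤ) P Gal(K/ℚ),
    ← Ideal.card_inertia_eq_ramificationIdxIn (G := Gal(K/ℚ)) (P.under ℤ) P]
  rw [Subgroup.card_eq_one, eq_bot_iff]
  intro g hg
  rw [AddSubgroup.mem_inertia] at hg
  exact Subgroup.mem_bot.mpr (h g hg)

attribute [local instance] Fermat.Agent.S14.Reduction.algebraIntQbar

/-- An open normal subgroup of the absolute Galois group of `ℚ` which contains, for every prime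
`ℓ`, the inertia subgroup of ONE valuation subring above `ℓ`, is everything. -/
theorem g1_eq_top' (N : Subgroup (AlgebraicClosure ℚ ≃ₐ[ℚ] AlgebraicClosure ℚ)) [N.Normal]
    (hN : IsOpen (N : Set (AlgebraicClosure ℚ ≃ₐ[ℚ] AlgebraicClosure ℚ)))
    (h : ∀ ℓ : ℕ, ℓ.Prime → ∃ A : ValuationSubring (AlgebraicClosure ℚ), A.LiesOverPrime ℓ ∧
      A.inertiaSubgroupIn ℚ ≤ N) : N = ⊤ := by
  set K := IntermediateField.fixedField N with hK
  haveI hfd : FiniteDimensional ℚ K := finiteDimensional_fixedField N hN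
  haveI hgal : IsGalois ℚ K := isGalois_fixedField N hN
  haveI : NumberField K := { to_charZero := inferInstance, to_finiteDimensional := hfd }
  have hfix : K.fixingSubgroup = N := fixingSubgroup_fixedField_of_isOpen N hN
  have hker : (AlgEquiv.restrictNormalHom (F := ℚ) (K₁ := AlgebraicClosure ℚ) K).ker = N := by
    rw [ker_restrictNormalHom, hfix]
  have h1 : Module.finrank ℚ K = 1 := by
    by_contra H
    have hpos : 0 < Module.finrank ℚ K := Module.finrank_pos
    have hlt : 1 < Module.finrank ℚ K := by omega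
    obtain ⟨ℓ, hℓ, hram⟩ :=
      NumberField.exists_not_isUnramifiedAt_int_of_isGalois (K := K) (𝒪 := 𝓞 K) hlt
    obtain ⟨A, hA, hAN⟩ := h ℓ hℓ
    haveI hQℓ : (g1_idealOf A).LiesOver (Ideal.span {(ℓ : ℤ)}) := g1_idealOf_liesOver hℓ hA
    set Q := g1_idealOf A with hQ
    set P : Ideal (𝓞 K) := Q.under (𝓞 K) with hPdef
    haveI hPprime : P.IsPrime := Ideal.IsPrime.under (𝓞 K) Q
    have hmemP : ∀ x : 𝓞 K, x ∈ P ↔ toIntQbar K x ∈ Q := fun x => Iff.rfl
    have hℓP : ((ℓ : ℕ) : 𝓞 K) ∈ P := by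
      rw [hmemP, hQ, g1_mem_idealOf]
      have h2 : ((toIntQbar K ((ℓ : ℕ) : 𝓞 K) : intQbar) : AlgebraicClosure ℚ)
          = ((ℓ : ℕ) : AlgebraicClosure ℚ) := by
        rw [coe_toIntQbar]
        simp
      rw [h2]
      exact hA
    have hP0 : P ≠ ⊥ := by
      intro h0
      rw [h0, Ideal.mem_bot] at hℓP
      have : (ℓ : 𝓞 K) ≠ 0 := Nat.cast_ne_zero.mpr hℓ.ne_zero
      exact this hℓP
    apply hram P hPprime hℓP
    apply g1_isUnramifiedAt P hP0
    intro g hg
    have hg' : ∀ x : 𝓞 K, toIntQbar K (g • x) - toIntQbar K x ∈ Q := by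
      intro x
      rw [← map_sub]
      exact (hmemP _).mp (hg x)
    obtain ⟨σ, hσ, hres⟩ := g1_exists_lift K hℓ Q g hg'
    rw [← g1_eq_valSubring hℓ hA] at hσ
    have hσN : σ ∈ N := hAN hσ
    rw [← hker, MonoidHom.mem_ker] at hσN
    rw [← hres, hσN]
  have hKbot : K = ⊥ := IntermediateField.finrank_eq_one_iff.mp h1
  rw [← hfix, hKbot]
  exact IntermediateField.fixingSubgroup_bot

/-- Homomorphism version of `g1_eq_top'`. -/
theorem g1_char_eq_one' {M : Type*} [Group M]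
    (ψ : (AlgebraicClosure ℚ ≃ₐ[ℚ] AlgebraicClosure ℚ) →* M)
    (hopen : IsOpen (ψ.ker : Set (AlgebraicClosure ℚ ≃ₐ[ℚ] AlgebraicClosure ℚ)))
    (h : ∀ ℓ : ℕ, ℓ.Prime → ∃ A : ValuationSubring (AlgebraicClosure ℚ), A.LiesOverPrime ℓ ∧
      ∀ σ ∈ A.inertiaSubgroupIn ℚ, ψ σ = 1)
    (σ : AlgebraicClosure ℚ ≃ₐ[ℚ] AlgebraicClosure ℚ) : ψ σ = 1 := by
  have htop : ψ.ker = ⊤ := g1_eq_top' ψ.ker hopen (fun ℓ hℓ => by
    obtain ⟨A, hA, hA'⟩ := h ℓ hℓ
    exact ⟨A, hA, fun τ hτ => MonoidHom.mem_ker.mpr (hA' τ hτ)⟩)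
  have : σ ∈ ψ.ker := by rw [htop]; exact Subgroup.mem_top σ
  exact MonoidHom.mem_ker.mp this

end One

end Fermat.Agent.S13
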